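import Fermat.Agent.RT.MazurP.Interface
import Fermat.Agent.RT.MazurP.LocalE
import Fermat.Agent.RT.LowerQ.Defs
import Fermat.Agent.RT.Mazur.Residual
import Fermat.Agent.RT.Mazur.Rational
import Fermat.Agent.Deform.Residual

/-!
# Eigen torsion, its Kummer functions, and the coefficient field of degree `p`

Eigen torsion satisfies the characteristic polynomials of `E[p]`, so contains a stable piece seeing
exactly the kernel of `E[p]`; fixed classes have fixed Kummer functions satisfying the Hecke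
relation; the field of `wildKer` contains one of degree `p` over the unramified base.
-/

set_option autoImplicit false
set_option synthInstance.maxHeartbeats 400000
set_option maxHeartbeats 1000000

noncomputable section

namespace Fermat.Agent.RT.MazurP

open ModularCurve AlgebraicCurve Fermat.Agent.Semistable Fermat.Agent.Arith
open Fermat.Agent.RT.Mazur Fermat.Agent.EC.Rep

section Quadratic

variable {k : Type*} [Field k]

/-- A common recursion for the powers of two roots of one quadratic polynomial. -/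
theorem exists_pow_eq {R S : Type*} [Ring R] [Algebra k R] [Ring S] [Algebra k S] {T : R} {U : S}
    {a c : k} (hT : T * T = a • T - c • 1) (hU : U * U = a • U - c • 1) (i : ℕ) :
    ∃ u v : k, T ^ i = u • T + v • 1 ∧ U ^ i = u • U + v • 1 := by
  induction i with
  | zero => exact ⟨0, 1, by simp, by simp⟩
  | succ i ih =>
    obtain ⟨u, v, h1, h2⟩ := ih
    refine ⟨u * a + v, -(u * c), ?_, ?_⟩
    · rw [pow_succ, h1, add_mul, smul_mul_assoc, smul_mul_assoc, one_mul, hT, smul_sub, smul_smul,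
        smul_smul, neg_smul, add_smul]
      abel
    · rw [pow_succ, h2, add_mul, smul_mul_assoc, smul_mul_assoc, one_mul, hU, smul_sub, smul_smul,
        smul_smul, neg_smul, add_smul]
      abel

variable {V : Type*} [AddCommGroup V] [Module k V] [Module.Finite k V]

theorem two_dim_quadratic (hV : Module.finrank k V = 2) (R : Module.End k V) :
    R * R = LinearMap.trace k V R • R - LinearMap.det R • 1 := by
  let b := Module.finBasisOfFinrankEq k V hV
  apply (LinearMap.toMatrixAlgEquiv b).injective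
  rw [map_mul, map_sub, map_smul, map_smul, map_one, LinearMap.trace_eq_matrix_trace k b,
    ← LinearMap.det_toMatrix b]
  change LinearMap.toMatrixAlgEquiv b R * LinearMap.toMatrixAlgEquiv b R =
    (LinearMap.toMatrixAlgEquiv b R).trace • LinearMap.toMatrixAlgEquiv b R -
      (LinearMap.toMatrixAlgEquiv b R).det • 1
  generalize LinearMap.toMatrixAlgEquiv b R = M
  ext i j
  fin_cases i <;> fin_cases j <;>
    simp [Matrix.mul_apply, Fin.sum_univ_two, Matrix.trace_fin_two, Matrix.det_fin_two] <;> ring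

theorem trace_det_affine (hV : Module.finrank k V = 2) (R : Module.End k V) (u v : k) :
    LinearMap.trace k V (u • R + v • 1) = u * LinearMap.trace k V R + 2 * v ∧
      LinearMap.det (u • R + v • 1) =
        u ^ 2 * LinearMap.det R + u * v * LinearMap.trace k V R + v ^ 2 := by
  let b := Module.finBasisOfFinrankEq k V hV
  simp only [LinearMap.trace_eq_matrix_trace k b, ← LinearMap.det_toMatrix b, map_add, map_smul,
    LinearMap.toMatrix_one]
  generalize LinearMap.toMatrix b b R = M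
  constructor
  · simp [Matrix.trace_fin_two]
    ring
  · simp [Matrix.trace_fin_two, Matrix.det_fin_two]
    ring

/-- If `T` and the two-dimensional `R` are roots of the characteristic polynomial of `R`, then
`T ^ i` is a root of that of `R ^ i`. -/
theorem quadratic_pow (hV : Module.finrank k V = 2) {R : Module.End k V} {S : Type*} [Ring S]
    [Algebra k S] {T : S}
    (hT : T * T = LinearMap.trace k V R • T - LinearMap.det R • 1) (i : ℕ) :
    T ^ i * T ^ i - LinearMap.trace k V (R ^ i) • T ^ i + LinearMap.det (R ^ i) • 1 = 0 := by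
  obtain ⟨u, v, h1, h2⟩ := exists_pow_eq hT (two_dim_quadratic hV R) i
  obtain ⟨ht, hd⟩ := trace_det_affine hV R u v
  rw [h2, ht, hd, h1]
  simp only [add_mul, mul_add, smul_mul_assoc, mul_smul_comm, one_mul, mul_one, hT, smul_smul,
    smul_add, smul_sub]
  module

/-- The pointwise form of `quadratic_pow`. -/
theorem quadratic_apply (hV : Module.finrank k V = 2) {R R' : Module.End k V}
    {E : Type*} [AddCommGroup E] [Module k E] {T G : Module.End k E} {a c : k}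
    (hT : T * T = a • T - c • 1) (ha : LinearMap.trace k V R = a) (hc : LinearMap.det R = c)
    {i : ℕ} (hR : R' = R ^ i) {x : E} (hx : (T ^ i) x = G x) (hgx : (T ^ i) (G x) = G (G x)) :
    G (G x) - LinearMap.trace k V R' • G x + LinearMap.det R' • x = 0 := by
  subst ha hc hR
  have key := LinearMap.congr_fun (quadratic_pow hV hT i) x
  rwa [LinearMap.add_apply, LinearMap.sub_apply, LinearMap.smul_apply, LinearMap.smul_apply,
    Module.End.mul_apply, Module.End.one_apply, LinearMap.zero_apply, hx, hgx] at key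

end Quadratic

variable {p : ℕ} [Fact p.Prime]

section Eigen

variable {N : ℕ} [NeZero N] (S : Finset ℕ) (a : ℕ → ZMod p)

theorem smul_mem_eigTors (g : GQ) {x : JZero N} (hx : x ∈ LowerQ.EigTors N p S a) :
    g • x ∈ LowerQ.EigTors N p S a := by
  rw [LowerQ.mem_eigTors] at hx ⊢
  have hn : ∀ (n : ℕ) (y : JZero N), g • (n • y) = n • (g • y) := fun n y =>
    map_nsmul (DistribSMul.toAddMonoidHom (JZero N) g) n y
  refine ⟨?_, fun ℓ hℓ hℓS => ?_⟩
  · exact (hn p x).symm.trans ((congrArg (g • ·) hx.1).trans (map_zero (DistribSMul.toAddMonoidHom (JZero N) g)))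
  · exact (GaloisReps.galois_heckeOperatorBar N ⟨ℓ, hℓ⟩ g x).symm.trans
      ((congrArg (g • ·) (hx.2 ℓ hℓ hℓS)).trans (hn _ x))

instance eigTorsModule : Module (ZMod p) (LowerQ.EigTors N p S a) :=
  AddCommGroup.zmodModule fun x => Subtype.ext x.2.1

theorem coe_smul_eigTors (c : ZMod p) (x : LowerQ.EigTors N p S a) :
    ((c • x : LowerQ.EigTors N p S a) : JZero N) = c.val • (x : JZero N) := by
  have e : c • x = c.val • x := by
    rw [← Nat.cast_smul_eq_nsmul (ZMod p), ZMod.natCast_val, ZMod.cast_id]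
  rw [e]
  rfl

instance finite_eigTors : Finite (LowerQ.EigTors N p S a) := by
  have : NeZero p := ⟨(Fact.out : p.Prime).ne_zero⟩
  have := JacTorsion.finite_torsion_JZero (N := N) (m := p)
  exact Finite.of_injective
    (fun x : LowerQ.EigTors N p S a =>
      (⟨x.1, by rw [Pic0.mem_torsion, natCast_zsmul]; exact x.2.1⟩ :
        Pic0.torsion (AlgebraicClosure ℚ) (modularFunctionFieldBar N) p))
    fun x y h => Subtype.ext (congrArg Subtype.val h :)

/-- The Galois action on eigen torsion. -/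
def eigAct : GQ →* Module.End (ZMod p) (LowerQ.EigTors N p S a) where
  toFun g :=
    AddMonoidHom.toZModLinearMap p
      { toFun := fun x => ⟨g • x.1, smul_mem_eigTors S a g x.2⟩
        map_zero' := Subtype.ext (smul_zero g)
        map_add' := fun x y => Subtype.ext (smul_add g x.1 y.1) }
  map_one' := LinearMap.ext fun x => Subtype.ext (one_smul GQ x.1)
  map_mul' g h := LinearMap.ext fun x => Subtype.ext (mul_smul g h x.1)

@[simp]
theorem coe_eigAct (g : GQ) (x : LowerQ.EigTors N p S a) :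
    (eigAct S a g x : JZero N) = g • (x : JZero N) := rfl

theorem exists_level_eigTors (y : LowerQ.EigTors N p S a) : ∃ L : IntermediateField ℚ QBar,
    FiniteDimensional ℚ L ∧ ∀ σ : GQ, (∀ z ∈ L, σ z = z) → σ • (y : JZero N) = y :=
  have : NeZero p := ⟨(Fact.out : p.Prime).ne_zero⟩
  GaloisReps.exists_fixing_torsion N
    (⟨y.1, by rw [Pic0.mem_torsion, natCast_zsmul]; exact y.2.1⟩ :
      Pic0.torsion (AlgebraicClosure ℚ) (modularFunctionFieldBar N) p)

/-- The Eichler–Shimura relation on eigen torsion. -/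
theorem eigAct_frobenius (hES : GaloisReps.CongruenceProperty N p) {ℓ : ℕ} (hℓ : ℓ.Prime)
    (hℓN : ¬ ℓ ∣ N * p) (hℓS : ℓ ∉ S) {A : ValuationSubring QBar} (hA : A.LiesOverPrime ℓ)
    {σ : GQ} (hσ : A.IsFrobeniusAt σ ℓ) :
    eigAct S a σ * eigAct S a σ =
      a ℓ • eigAct S a σ -
        (ℓ : ZMod p) • (1 : Module.End (ZMod p) (LowerQ.EigTors N p S a)) := by
  refine LinearMap.ext fun y => Subtype.ext ?_
  have h := (hES ℓ hℓ hℓN A hA 1
    ⟨y.1, by rw [Pic0.mem_torsion, pow_one, natCast_zsmul]; exact y.2.1⟩).2 σ hσ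
  have e := (smul_mem_eigTors S a σ y.2).2 ℓ hℓ hℓS
  rw [Nat.cast_smul_eq_nsmul (ZMod p)]
  show σ • σ • (y : JZero N) =
    ((a ℓ • eigAct S a σ y : LowerQ.EigTors N p S a) : JZero N) - ℓ • (y : JZero N)
  rw [coe_smul_eigTors, coe_eigAct, eq_sub_iff_add_eq, ← e, ← sub_eq_zero]
  refine Eq.trans ?_ h
  abel

theorem eigAct_pow_eq {g : GQ} {σ : GQ} {i : ℕ} (y : LowerQ.EigTors N p S a)
    (h : (g⁻¹ * σ ^ i) • (y : JZero N) = y) : (eigAct S a σ ^ i) y = eigAct S a g y := by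
  rw [← map_pow]
  refine Subtype.ext ?_
  rw [mul_smul, inv_smul_eq_iff] at h
  exact h

/-- A Frobenius power agreeing with `g` on the torsion in question. -/
theorem exists_frobenius_agree {W : WeierstrassCurve ℤ} (hΔ : W.Δ ≠ 0)
    (g : GQ) (x : LowerQ.EigTors N p S a) :
    ∃ ℓ : ℕ, ℓ.Prime ∧ ℓ ∉ S ∧ ∃ A : ValuationSubring QBar, A.LiesOverPrime ℓ ∧
      ∃ σ : GQ, A.IsFrobeniusAt σ ℓ ∧ ∃ i : ℕ,
        (residualRep W p hΔ).ρ g = (residualRep W p hΔ).ρ σ ^ i ∧
        (eigAct S a σ ^ i) x = eigAct S a g x ∧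
        (eigAct S a σ ^ i) (eigAct S a g x) = eigAct S a g (eigAct S a g x) := by
  classical
  obtain ⟨L₀, hL₀, hρ⟩ := (residualRep W p hΔ).factorsThroughFiniteLevel
  obtain ⟨L₁, hL₁, h₁⟩ := exists_level_eigTors S a x
  obtain ⟨L₂, hL₂, h₂⟩ := exists_level_eigTors S a (eigAct S a g x)
  obtain ⟨ℓ, hℓ, hℓS, A, hA, σ, hσ, i, hi⟩ :=
    GaloisReps.frobeniusDensity (L₀ ⊔ (L₁ ⊔ L₂)) inferInstance g S
  have hfix := GaloisReps.inv_mul_fixes hi
  refine ⟨ℓ, hℓ, hℓS, A, hA, σ, hσ, i, ?_,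
    eigAct_pow_eq S a x (h₁ _ fun z hz => hfix z
      ((le_sup_of_le_right le_sup_left : L₁ ≤ L₀ ⊔ (L₁ ⊔ L₂)) hz)),
    eigAct_pow_eq S a _ (h₂ _ fun z hz => hfix z
      ((le_sup_of_le_right le_sup_right : L₂ ≤ L₀ ⊔ (L₁ ⊔ L₂)) hz))⟩
  have h := hρ (g⁻¹ * σ ^ i) fun z hz => hfix z ((le_sup_left : L₀ ≤ L₀ ⊔ (L₁ ⊔ L₂)) hz)
  rw [map_mul, map_pow] at h
  calc (residualRep W p hΔ).ρ g = (residualRep W p hΔ).ρ g *
        ((residualRep W p hΔ).ρ g⁻¹ * (residualRep W p hΔ).ρ σ ^ i) := by rw [h, mul_one]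
    _ = _ := by rw [← mul_assoc, ← map_mul, mul_inv_cancel, map_one, one_mul]

theorem eigAct_quad {W : WeierstrassCurve ℤ} (hΔ : W.Δ ≠ 0)
    (hES : GaloisReps.CongruenceProperty N p)
    (hS : ∀ ℓ : ℕ, ℓ.Prime → ℓ ∉ S → ¬ ℓ ∣ N * p ∧ W.IsGoodPrimeFor ℓ ∧
      (W.apOfModel ℓ : ZMod p) = a ℓ)
    (g : GQ) (x : LowerQ.EigTors N p S a) :
    eigAct S a g (eigAct S a g x) -
        LinearMap.trace (ZMod p) _ ((residualRep W p hΔ).ρ g) • eigAct S a g x +
      LinearMap.det ((residualRep W p hΔ).ρ g) • x = 0 := by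
  obtain ⟨ℓ, hℓ, hℓS, A, hA, σ, hσ, i, hgσ, hx, hgx⟩ := exists_frobenius_agree S a hΔ g x
  obtain ⟨hℓN, hgood, hap⟩ := hS ℓ hℓ hℓS
  have hne : ℓ ≠ p := fun e => hℓN (e ▸ dvd_mul_left _ _)
  exact quadratic_apply (residualRep W p hΔ).finrank_eq
    (eigAct_frobenius S a hES hℓ hℓN hℓS hA hσ)
    ((EC.FrobTrace.galoisTrace_frobenius W hℓ hgood hne hA hσ).trans hap)
    (EC.FrobTrace.det_frobenius W hℓ hgood hne hA hσ) hgσ hx hgx

end Eigen

section EigenResults

variable {W : WeierstrassCurve ℤ} (hΔ : W.Δ ≠ 0)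

/-- The quadratic relation of `E[p]` on eigen torsion. -/
theorem quad_of_mem_eigTors {N : ℕ} [NeZero N]
    (hES : GaloisReps.CongruenceProperty N p) (S : Finset ℕ) (a : ℕ → ZMod p)
    (hS : ∀ ℓ : ℕ, ℓ.Prime → ℓ ∉ S → ¬ ℓ ∣ N * p ∧ W.IsGoodPrimeFor ℓ ∧
      (W.apOfModel ℓ : ZMod p) = a ℓ)
    (g : GQ) {x : JZero N} (hx : x ∈ LowerQ.EigTors N p S a) :
    g • g • x - (LinearMap.trace (ZMod p) _ ((EC.Rep.residualRep W p hΔ).ρ g)).val • (g • x) +
      (LinearMap.det ((EC.Rep.residualRep W p hΔ).ρ g)).val • x = 0 := by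
  have h := congrArg Subtype.val (eigAct_quad S a hΔ hES hS g ⟨x, hx⟩)
  simpa only [AddSubgroup.coe_add, AddSubgroup.coe_sub, coe_smul_eigTors, coe_eigAct,
    ZeroMemClass.coe_zero] using h

/-- A stable piece of eigen torsion seeing exactly the kernel of `E[p]`. -/
theorem exists_eigen_submodule (hirr : W.ModRepIsIrreducible p) (hp2 : p ≠ 2) {N : ℕ} [NeZero N]
    (hES : GaloisReps.CongruenceProperty N p) (S : Finset ℕ) (a : ℕ → ZMod p)
    (hS : ∀ ℓ : ℕ, ℓ.Prime → ℓ ∉ S → ¬ ℓ ∣ N * p ∧ W.IsGoodPrimeFor ℓ ∧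
      (W.apOfModel ℓ : ZMod p) = a ℓ)
    (hne : LowerQ.EigTors N p S a ≠ ⊥) :
    ∃ U : AddSubgroup (JZero N), U ≤ LowerQ.EigTors N p S a ∧ U ≠ ⊥ ∧
      (∀ (g : GQ), ∀ x ∈ U, g • x ∈ U) ∧
      (∀ g : GQ, (EC.Rep.residualRep W p hΔ).ρ g = 1 → ∀ x ∈ U, g • x = x) ∧
      ∀ g : GQ, (∀ c : ZMod p, (EC.Rep.residualRep W p hΔ).ρ g ≠ c • 1) →
        ∀ c : ℤ, ∃ x ∈ U, g • x ≠ c • x := by
  classical
  set ρ := residualRep W p hΔ
  let b := Module.finBasisOfFinrankEq (ZMod p) ρ.V ρ.finrank_eq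
  let r : GQ →* Matrix (Fin 2) (Fin 2) (ZMod p) :=
    (LinearMap.toMatrixAlgEquiv b).toMonoidHom.comp ρ.ρ
  have hspan : Submodule.span (ZMod p) (Set.range r) = ⊤ :=
    Deform.span_matrix_eq_top ρ (isAbsolutelyIrreducible_residualRep hΔ hp2 hirr) b
  obtain ⟨x, hx, hx0⟩ : ∃ x ∈ LowerQ.EigTors N p S a, x ≠ 0 := by
    by_contra h
    simp only [not_exists, not_and, not_not] at h
    exact hne ((AddSubgroup.eq_bot_iff_forall _).mpr h)
  have htop : (⊤ : Submodule (ZMod p) (LowerQ.EigTors N p S a)) ≠ ⊥ := by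
    intro h
    have : (⟨x, hx⟩ : LowerQ.EigTors N p S a) ∈ (⊥ : Submodule (ZMod p) _) := h ▸ trivial
    exact hx0 (congrArg Subtype.val ((Submodule.mem_bot _).mp this))
  obtain ⟨U, -, hU0, hUst, htriv, hscal⟩ := exists_submodule_kernel (eigAct S a) r hspan ⊤
    (fun _ _ _ => trivial) htop (fun g v _ => by
      have h := eigAct_quad S a hΔ hES hS g v
      rwa [LinearMap.trace_eq_matrix_trace _ b, ← LinearMap.det_toMatrix b] at h)
  refine ⟨U.toAddSubgroup.map (LowerQ.EigTors N p S a).subtype, ?_, ?_, ?_, ?_, ?_⟩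
  · rintro _ ⟨v, -, rfl⟩
    exact v.2
  · intro h
    refine hU0 ((Submodule.eq_bot_iff _).mpr fun v hv => Subtype.ext ?_)
    have : (v : JZero N) ∈ U.toAddSubgroup.map (LowerQ.EigTors N p S a).subtype := ⟨v, hv, rfl⟩
    rw [h] at this
    exact this
  · rintro g _ ⟨v, hv, rfl⟩
    exact ⟨eigAct S a g v, hUst g v hv, rfl⟩
  · rintro g hg _ ⟨v, hv, rfl⟩
    exact congrArg Subtype.val (htriv g (by show LinearMap.toMatrixAlgEquiv b _ = 1; rw [hg, map_one])
      v hv)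
  · intro g hg c
    obtain ⟨v, hv, hvne⟩ := hscal g (fun c' h => hg c' ((LinearMap.toMatrixAlgEquiv b).injective
      (by rw [map_smul, map_one]; exact h))) (c : ZMod p)
    refine ⟨v, ⟨v, hv, rfl⟩, fun h => hvne (Subtype.ext ?_)⟩
    rw [coe_eigAct, Int.cast_smul_eq_zsmul]
    exact h

end EigenResults

section Kummer

/-- A torsion class fixed by `H` has a normalised Kummer function fixed by `H`. -/
theorem exists_kummer_fixed {N : ℕ} [NeZero N] {H : Subgroup GQ}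
    (x : Pic0.torsion QBar (FB N) p) (hx : ∀ τ ∈ H, τ • (x : JZero N) = x) :
    ∃ f : JacTorsion.divGrp QBar (FB N) p, JacTorsion.toTorsion (Additive.ofMul f) = x ∧
      (((f : (FB N)ˣ) : FB N) : LSer).leadingCoeff = 1 ∧
      ∀ τ ∈ H, galF N τ ((f : (FB N)ˣ) : FB N) = ((f : (FB N)ˣ) : FB N) := by
  have : NeZero p := ⟨(Fact.out : p.Prime).ne_zero⟩
  obtain ⟨f, hfx, hl, hfix⟩ := exists_fixed_kummer
    (S := arithmeticGalois (modularFunctionFieldFull N) '' (H : Set GQ))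
    (P₀ := Mazur.Eisenstein.placeInf N)
    (by rintro _ ⟨τ, -, rfl⟩; exact galois_smul_placeInf τ)
    (fun y : FB N => (y : LSer).leadingCoeff)
    (fun c y => by
      show ((algebraMap QBar LSer c) * (y : LSer)).leadingCoeff = _
      rw [HahnSeries.leadingCoeff_mul, algebraMap_laurentSeries_eq_single,
        HahnSeries.leadingCoeff_of_single])
    (fun y hy => HahnSeries.leadingCoeff_ne_zero.mpr fun h => hy (Subtype.ext h))
    (by rintro _ ⟨τ, -, rfl⟩ y; exact JacTorsion.coeffMap_leadingCoeff (τ : QBar →+* QBar) _)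
    (x := x) (by rintro _ ⟨τ, hτ, rfl⟩; exact hx τ hτ)
  exact ⟨f, hfx, hl, fun τ hτ => hfix _ ⟨τ, hτ, rfl⟩⟩

/-- The Hecke relation of the Kummer function of an eigen class. -/
theorem heckeRel_of_eigen {N l : ℕ} [NeZero N] [NeZero l] (hl : l.Prime)
    (f : JacTorsion.divGrp QBar (FB N) p) (a : ℤ)
    (hx : heckeOperatorBar N ⟨l, hl⟩ (JacTorsion.toTorsion (Additive.ofMul f) : JZero N) =
      a • (JacTorsion.toTorsion (Additive.ofMul f) : JZero N)) :
    HeckeRel N p l ((f : (FB N)ˣ) : FB N) a :=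
  have : NeZero p := ⟨(Fact.out : p.Prime).ne_zero⟩
  exists_heckeNorm_eq l hl f a hx

end Kummer

section OddField

open scoped Classical in
/-- The valuation of the norm from a subgroup of inertia with finitely many cosets. -/
theorem exists_zpow_card_cosets {A : ValuationSubring QBar} (hA : A.LiesOverPrime p)
    (H' : Subgroup GQ) (S : Finset (GQ ⧸ H'))
    (hS : ∀ q, q ∈ S ↔ ∃ h ∈ A.inertiaSubgroupIn ℚ, (QuotientGroup.mk h : GQ ⧸ H') = q)
    {x : QBar} (hx0 : x ≠ 0) (hx : ∀ h ∈ H', h x = x) :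
    ∃ k : ℤ, A.valuation x ^ S.card = A.valuation (p : QBar) ^ k := by
  let qx : GQ ⧸ H' → QBar := Quotient.lift (fun g : GQ => g x) fun a b hab => by
    have h : a⁻¹ * b ∈ H' := QuotientGroup.leftRel_apply.mp hab
    calc a x = a ((a⁻¹ * b) x) := by rw [hx _ h]
      _ = b x := by rw [← AlgEquiv.mul_apply, mul_inv_cancel_left]
  have hqx : ∀ g : GQ, qx (QuotientGroup.mk g) = g x := fun g => rfl
  have hN0 : ∏ q ∈ S, qx q ≠ 0 := Finset.prod_ne_zero_iff.mpr fun q hq => by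
    obtain ⟨h, -, rfl⟩ := (hS q).mp hq
    rw [hqx]
    exact (map_ne_zero _).mpr hx0
  obtain ⟨k, hk⟩ := exists_zpow_of_inertiaFixed hA Fact.out hN0 fun τ hτ => by
    rw [map_prod]
    refine Finset.prod_bij' (fun q _ => τ • q) (fun q _ => τ⁻¹ • q) ?_ ?_ ?_ ?_ ?_
    · intro q hq
      obtain ⟨h, hh, rfl⟩ := (hS q).mp hq
      exact (hS _).mpr ⟨τ * h, mul_mem hτ hh, rfl⟩
    · intro q hq
      obtain ⟨h, hh, rfl⟩ := (hS q).mp hq
      exact (hS _).mpr ⟨τ⁻¹ * h, mul_mem (inv_mem hτ) hh, rfl⟩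
    · exact fun q _ => inv_smul_smul τ q
    · exact fun q _ => smul_inv_smul τ q
    · intro q hq
      obtain ⟨h, -, rfl⟩ := (hS q).mp hq
      show τ (qx (QuotientGroup.mk h)) = qx (QuotientGroup.mk (τ * h))
      rw [hqx, hqx, AlgEquiv.mul_apply]
  refine ⟨k, ?_⟩
  rw [← hk, map_prod, Finset.prod_congr rfl fun q hq => ?_, Finset.prod_const]
  obtain ⟨h, hh, rfl⟩ := (hS q).mp hq
  exact valuation_inertia hh x

variable {A : ValuationSubring QBar} {W : WeierstrassCurve ℤ}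

/-- The subgroup generated by `wildKer` and an element of inertia of finite order modulo it. -/
def oddGroup {τ : GQ} (hτ : τ ∈ A.inertiaSubgroupIn ℚ) (hp : τ ^ (p - 1) ∈ wildKer A W p) :
    Subgroup GQ where
  carrier := {h | ∃ i : ℕ, (τ ^ i)⁻¹ * h ∈ wildKer A W p}
  one_mem' := ⟨0, by simp [one_mem]⟩
  mul_mem' := fun {a b} => fun ⟨i, hi⟩ ⟨j, hj⟩ => ⟨i + j, by
    have e : (τ ^ (i + j))⁻¹ * (a * b) =
        (τ ^ j)⁻¹ * ((τ ^ i)⁻¹ * a) * τ ^ j * ((τ ^ j)⁻¹ * b) := by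
      rw [pow_add]; group
    rw [e]
    exact mul_mem (conj_mem_wildKer (pow_mem hτ j) hi) hj⟩
  inv_mem' := fun {a} => fun ⟨i, hi⟩ => ⟨i * (p - 2), by
    have hp2 : 2 ≤ p := (Fact.out : p.Prime).two_le
    have e : (τ ^ (i * (p - 2)))⁻¹ * a⁻¹ =
        ((τ ^ (p - 1)) ^ i)⁻¹ * (((τ ^ i)⁻¹)⁻¹ * ((τ ^ i)⁻¹ * a)⁻¹ * (τ ^ i)⁻¹) := by
      rw [← pow_mul, show (p - 1) * i = i * (p - 2) + i by
        obtain ⟨m, rfl⟩ := Nat.exists_eq_add_of_le hp2
        simp only [Nat.add_sub_cancel_left, show 2 + m - 1 = m + 1 by omega]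
        ring, pow_add]
      group
    rw [e]
    exact mul_mem (inv_mem (pow_mem hp i))
      (conj_mem_wildKer (inv_mem (pow_mem hτ i)) (inv_mem hi))⟩

/-- The coefficient field of degree `p`: the wild field cut down by a tame generator. -/
theorem exists_oddField (hA : A.LiesOverPrime p) (F : Frame A W p)
    (Wd : Wild A p) (hH : Wd.C.H = wildKer A W p) (hH₁ : Wd.C₁.H = tameKer A p)
    (hgen : ∀ h ∈ tameKer A p, ∃ i : ℕ, (Wd.σ ^ i)⁻¹ * h ∈ wildKer A W p) :
    ∃ (C' : CoefField A p) (τ : GQ), C'.e = p ∧ τ ∈ A.inertiaSubgroupIn ℚ ∧ Wd.C.H ≤ C'.H ∧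
      τ ∈ C'.H ∧ (∀ j : ℕ, ((cyclotomicHom p τ : ZMod p)) ^ j = 1 → p - 1 ∣ j) ∧
      (∀ h ∈ C'.H, ∃ i : ℕ, (τ ^ i)⁻¹ * h ∈ Wd.C.H) := by
  classical
  have hp : p.Prime := Fact.out
  have hp2 := hp.two_le
  have hpow : ∀ h ∈ tameKer A p, h ^ p ∈ wildKer A W p := fun h hh => by
    obtain ⟨b, hb⟩ := F.smul_S h (mem_tameKer.mp hh).1
    refine F.mem_wildKer_of (pow_mem hh p) ?_
    rw [F.pow_smul_S hh hb, mul_comm, mul_zsmul, F.hR, zsmul_zero, add_zero]
  obtain ⟨τ₀, hτ₀, hprim, hpow₀, hgen₀⟩ := exists_tame_generator (p := p) hA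
  set τ := τ₀ ^ p with hτdef
  have hτ : τ ∈ A.inertiaSubgroupIn ℚ := pow_mem hτ₀ p
  have hχ : cyclotomicHom p τ = cyclotomicHom p τ₀ := by
    have h1 : p = p - 1 + 1 := (Nat.sub_add_cancel hp.one_le).symm
    rw [hτdef, map_pow]
    conv_lhs => arg 2; rw [h1]
    rw [pow_succ, ZMod.units_pow_card_sub_one_eq_one, one_mul]
  have hτpow : τ ^ (p - 1) ∈ wildKer A W p := by
    rw [hτdef, ← pow_mul, mul_comm, pow_mul]
    exact hpow _ hpow₀
  set H' := oddGroup hτ hτpow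
  have hle : Wd.C.H ≤ H' := fun h hh => ⟨0, by simpa [← hH] using hh⟩
  have hτH' : τ ∈ H' := ⟨1, by simp [one_mem]⟩
  have hH'I : H' ≤ A.inertiaSubgroupIn ℚ := fun h ⟨i, hi⟩ => by
    have := mul_mem (pow_mem hτ i) (mem_wildKer.mp hi).1.1
    rwa [mul_inv_cancel_left] at this
  -- the cosets
  let S : Finset (GQ ⧸ H') := (Finset.range p).image fun i => QuotientGroup.mk (Wd.σ ^ i)
  have hσ : Wd.σ ∈ tameKer A p := hH₁ ▸ Wd.σ_mem
  have hS : ∀ q, q ∈ S ↔ ∃ h ∈ A.inertiaSubgroupIn ℚ, (QuotientGroup.mk h : GQ ⧸ H') = q := by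
    intro q
    constructor
    · intro hq
      obtain ⟨i, -, rfl⟩ := Finset.mem_image.mp hq
      exact ⟨_, pow_mem Wd.σ_mem_inertia i, rfl⟩
    · rintro ⟨h, hh, rfl⟩
      obtain ⟨i, hi⟩ := hgen₀ h hh
      have ht : h * (τ ^ i)⁻¹ ∈ tameKer A p := by
        rw [mem_tameKer] at hi ⊢
        refine ⟨mul_mem hh (inv_mem (pow_mem hτ i)), ?_⟩
        rw [map_mul, map_inv, map_pow, hχ, mul_comm]
        simpa only [map_mul, map_inv, map_pow] using hi.2
      obtain ⟨j, hj⟩ := hgen _ ht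
      refine Finset.mem_image.mpr ⟨j % p, Finset.mem_range.mpr (Nat.mod_lt _ hp.pos),
        QuotientGroup.eq.mpr ?_⟩
      have e : (Wd.σ ^ (j % p))⁻¹ * h =
          (Wd.σ ^ p) ^ (j / p) * ((Wd.σ ^ j)⁻¹ * (h * (τ ^ i)⁻¹)) * τ ^ i := by
        rw [← mul_assoc ((Wd.σ ^ p) ^ (j / p)),
          show (Wd.σ ^ p) ^ (j / p) * (Wd.σ ^ j)⁻¹ = (Wd.σ ^ (j % p))⁻¹ by
            nth_rw 2 [← Nat.mod_add_div j p]
            rw [pow_add, pow_mul, mul_inv_rev, mul_inv_cancel_left]]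
        group
      rw [e]
      exact mul_mem (hle (hH ▸ mul_mem (pow_mem (hpow _ hσ) _) hj)) (pow_mem hτH' i)
  set c := S.card with hc
  have hcp : c ≤ p := Finset.card_image_le.trans (Finset.card_range p).le
  have hc0 : 0 < c := Finset.card_pos.mpr ⟨_, (hS _).mpr ⟨1, one_mem _, rfl⟩⟩
  set v := A.valuation
  have hπ0 : v Wd.C.π ≠ 0 := (Valuation.ne_zero_iff _).mpr Wd.C.π_ne_zero
  have hπlt : v Wd.C.π < 1 := A.mem_nonunits_iff.mp Wd.C.π_nonunit
  have hinj : Function.Injective fun n : ℤ => v Wd.C.π ^ n :=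
    zpow_right_injective₀ (zero_lt_iff.mpr hπ0) hπlt.ne
  have key : ∀ x : QBar, x ≠ 0 → (∀ h ∈ H', h x = x) →
      ∃ n k : ℤ, v x = v Wd.C.π ^ n ∧ n * c = k * (p * (p - 1) : ℕ) := by
    intro x hx0 hx
    obtain ⟨n, hn⟩ := Wd.C.discrete x hx0 fun h hh => hx h (hle hh)
    obtain ⟨k, hk⟩ := exists_zpow_card_cosets hA H' S hS hx0 hx
    refine ⟨n, k, hn, hinj ?_⟩
    show v Wd.C.π ^ (n * c) = v Wd.C.π ^ (k * ((p * (p - 1) : ℕ) : ℤ))
    rw [zpow_mul, zpow_natCast, ← hn, hk, Wd.C.val_p, Wd.e_eq, ← zpow_natCast, ← zpow_mul,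
      mul_comm]
  -- the uniformiser
  have hτπ := fixed_prod_pow (H := Wd.C.H) (g := τ) (n := p - 1)
    (fun h hh => hH ▸ conj_mem_wildKer hτ (hH ▸ hh)) (hH ▸ hτpow) Wd.C.π_fixed
  set π' := ∏ i ∈ Finset.range (p - 1), (τ ^ i) Wd.C.π with hπ'
  have hπ'fix : ∀ h ∈ H', h π' = π' := fun h ⟨i, hi⟩ => by
    have h1 : ∀ j : ℕ, (τ ^ j) π' = π' := fun j => by
      induction j with
      | zero => simp
      | succ j ih => rw [pow_succ, AlgEquiv.mul_apply, hτπ.2, ih]
    rw [show h = τ ^ i * ((τ ^ i)⁻¹ * h) by group, AlgEquiv.mul_apply, hτπ.1 _ (hH ▸ hi), h1]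
  have hπ'0 : π' ≠ 0 := Finset.prod_ne_zero_iff.mpr fun i _ =>
    (map_ne_zero _).mpr Wd.C.π_ne_zero
  have hvπ' : v π' = v Wd.C.π ^ (p - 1) := by
    rw [hπ', map_prod, Finset.prod_congr rfl fun i _ => valuation_inertia (pow_mem hτ i) _,
      Finset.prod_const, Finset.card_range]
  have hceq : c = p := by
    obtain ⟨n, k, hn, hnk⟩ := key π' hπ'0 hπ'fix
    rw [hvπ', ← zpow_natCast] at hn
    obtain rfl := hinj hn.symm
    have h1 : (c : ℤ) = k * p := by
      have : ((p - 1 : ℕ) : ℤ) ≠ 0 := by omega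
      push_cast at hnk
      refine mul_left_cancel₀ this ?_
      linear_combination hnk
    have : p ∣ c := Int.natCast_dvd_natCast.mp ⟨k, by rw [h1, mul_comm]⟩
    exact le_antisymm hcp (Nat.le_of_dvd hc0 this)
  refine ⟨{ H := H', le_inertia := hH'I, π := π', π_ne_zero := hπ'0,
            π_nonunit := A.mem_nonunits_iff.mpr ?_, π_fixed := hπ'fix, e := p, e_pos := hp.pos,
            val_p := ?_, discrete := fun x hx0 hx => ?_ },
    τ, rfl, hτ, hle, hτH', fun j hj => hprim j (by rwa [hχ] at hj), fun h hh => ?_⟩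
  · show v π' < 1
    rw [hvπ']
    exact pow_lt_one₀ zero_le hπlt (by omega)
  · show v (p : QBar) = v π' ^ p
    rw [hvπ', ← pow_mul, mul_comm, ← Wd.e_eq]
    exact Wd.C.val_p
  · obtain ⟨n, k, hn, hnk⟩ := key x hx0 hx
    refine ⟨k, ?_⟩
    have hnk' : n = k * ((p - 1 : ℕ) : ℤ) := by
      rw [hceq] at hnk
      push_cast at hnk
      refine mul_right_cancel₀ (Int.natCast_ne_zero.mpr hp.ne_zero) ?_
      linear_combination hnk
    show v x = v π' ^ k
    rw [hn, hnk', hvπ', ← zpow_natCast, ← zpow_mul, mul_comm]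
  · obtain ⟨i, hi⟩ := hh
    exact ⟨i, hH ▸ hi⟩

end OddField

end Fermat.Agent.RT.MazurP

end
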