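import Fermat.Agent.RT.MazurP.HeckeSeries
import Fermat.Agent.RT.MazurP.Position
import Fermat.Agent.GaloisReps.Results

/-!
# Interface of level lowering at `p`

The Hecke relation of Kummer functions, the inclusion of level `p M₀` in level `p M`, and the
descended orders used by the assembly.
-/

set_option autoImplicit false
set_option synthInstance.maxHeartbeats 400000

noncomputable section

namespace Fermat.Agent.RT.MazurP

open ModularCurve AlgebraicCurve Fermat.Agent.Semistable Fermat.Agent.Arith
open Fermat.Agent.RT.Mazur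

/-- The image of `f` under the `l`-th Hecke correspondence is `f ^ a` up to a `p`-th power. -/
def HeckeRel (N p l : ℕ) [NeZero N] [NeZero l] (f : FB N) (a : ℤ) : Prop :=
  ∃ h : FB N, h ≠ 0 ∧ heckeNorm N l f = f ^ a * h ^ p

theorem fb_le_of_dvd {N N' : ℕ} [NeZero N] [NeZero N'] (h : N ∣ N') : FB N ≤ FB N' := by
  rw [fb_eq_adjoin N, IntermediateField.adjoin_le_iff]
  rintro _ ⟨d, rfl⟩
  exact gen_mem N' ⟨d.1, d.2.trans h⟩

/-- Inclusion of a lower level. -/
def inclF {N N' : ℕ} [NeZero N] [NeZero N'] (h : N ∣ N') : FB N →ₐ[QBar] FB N' :=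
  IntermediateField.inclusion (fb_le_of_dvd h)

@[simp]
theorem coe_inclF {N N' : ℕ} [NeZero N] [NeZero N'] (h : N ∣ N') (x : FB N) :
    (inclF h x : LSer) = (x : LSer) :=
  IntermediateField.coe_inclusion (fb_le_of_dvd h) x

/-- Every nonzero reduction of a Kummer function is, up to a `p`-th power, trivial. -/
def Kum.IsPow {A : ValuationSubring QBar} {p M : ℕ} [Fact p.Prime] [NeZero M] {hpM : ¬ p ∣ M}
    {C : CoefField A p} (K : Kum hpM C) : Prop :=
  ∀ s, ∃ g : KM A M, g ^ p = K.fb s

end Fermat.Agent.RT.MazurP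

end
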