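import Fermat.Agent.RT.MazurP.Interface
import Fermat.Agent.RT.MazurP.Regular

/-!
# Level change `M₀ ↔ 4 M₀` and regular differentials

The inclusion of level `p M₀` in level `p M` commutes with the embeddings, Galois and the Hecke
relation; `p`-th powers and regular logarithmic differentials descend, as the degree is prime
to `p`.
-/

set_option autoImplicit false
set_option synthInstance.maxHeartbeats 400000
set_option linter.unusedSectionVars false
set_option linter.style.haveILetI false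

noncomputable section

namespace Fermat.Agent.RT.MazurP

open ModularCurve AlgebraicCurve Fermat.Agent.Semistable Fermat.Agent.Arith
open Fermat.Agent.RT.Mazur
open scoped IntermediateField

variable {A : ValuationSubring QBar} {p M : ℕ} [Fact p.Prime] [NeZero M] {hpM : ¬ p ∣ M}
variable [CharP (Res A) p] [FF.IsFunctionField (Res A) (KM A M)]

theorem iota2_inclF {M₀ : ℕ} [NeZero M₀] (h : M₀ ∣ M) (hpM₀ : ¬ p ∣ M₀) (s : Fin 2)
    (x : FB (p * M₀)) :
    iota2 M p hpM s (inclF (mul_dvd_mul_left p h) x) = iota2 M₀ p hpM₀ s x := by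
  revert s
  rw [Fin.forall_fin_two]
  constructor
  · rw [iota2_zero, iota2_zero, coe_inclF]
  · rw [iota2_one, iota2_one]
    have key : ((FB (p * M)).val.comp ((wEquiv p M hpM).toAlgHom.comp
        (inclF (mul_dvd_mul_left p h)))).toRingHom =
        ((FB (p * M₀)).val.comp (wEquiv p M₀ hpM₀).toAlgHom).toRingHom := by
      refine fb_ringHom_ext (fun a => ?_) fun d => ?_
      · simp
      obtain ⟨d, hd⟩ := d
      show (wEquiv p M hpM (inclF (mul_dvd_mul_left p h) (genF (p * M₀) ⟨d, hd⟩)) : LSer) =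
        (wEquiv p M₀ hpM₀ (genF (p * M₀) ⟨d, hd⟩) : LSer)
      rw [show inclF (mul_dvd_mul_left p h) (genF (p * M₀) ⟨d, hd⟩) =
        genF (p * M) ⟨d, hd.trans (mul_dvd_mul_left p h)⟩ from Subtype.ext (coe_inclF _ _)]
      rcases dvs_cases p M₀ Fact.out hd with hdM | ⟨d', hd', rfl⟩
      · have : NeZero d := ⟨fun h0 => NeZero.ne M₀ (Nat.eq_zero_of_zero_dvd (h0 ▸ hdM))⟩
        rw [wEquiv_gen_of_dvd p M hpM (hdM.trans h), wEquiv_gen_of_dvd p M₀ hpM₀ hdM]
      · have : NeZero d' := ⟨fun h0 => NeZero.ne M₀ (Nat.eq_zero_of_zero_dvd (h0 ▸ hd'))⟩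
        rw [wEquiv_gen_mul p M hpM (hd'.trans h), wEquiv_gen_mul p M₀ hpM₀ hd']
    exact DFunLike.congr_fun key x

theorem galF_inclF {N N' : ℕ} [NeZero N] [NeZero N'] (h : N ∣ N') (τ : GQ) (x : FB N) :
    galF N' τ (inclF h x) = inclF h (galF N τ x) :=
  Subtype.ext (by rw [coe_arithmeticRingAut, coe_inclF, coe_inclF, coe_arithmeticRingAut])

theorem heckeNorm_inclF {N N' : ℕ} [NeZero N] [NeZero N'] (h : N ∣ N') {l : ℕ} [NeZero l]
    (hl : l.Prime) (hlN : ¬ l ∣ N') (f : FB N) :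
    heckeNorm N' l (inclF h f) = inclF h (heckeNorm N l f) := by
  obtain ⟨ζ, hζ⟩ := exists_primitive hl hlN
  refine Subtype.ext (qExpand_injective l ?_)
  rw [qExpand_heckeNorm hl hlN hζ, coe_inclF, coe_inclF,
    qExpand_heckeNorm hl (fun h' => hlN (h'.trans h)) hζ]

theorem HeckeRel.inclF {N N' : ℕ} [NeZero N] [NeZero N'] (h : N ∣ N') {q l : ℕ} [NeZero l]
    (hl : l.Prime) (hlN : ¬ l ∣ N') {f : FB N} {a : ℤ} (hrel : HeckeRel N q l f a) :
    HeckeRel N' q l (inclF h f) a := by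
  obtain ⟨g, hg, e⟩ := hrel
  refine ⟨MazurP.inclF h g, (map_ne_zero _).mpr hg, ?_⟩
  rw [heckeNorm_inclF h hl hlN, e, map_mul, map_pow, map_zpow₀]

theorem dvd_ord_inclF {N N' : ℕ} [NeZero N] [NeZero N'] (h : N ∣ N') {m : ℤ} {f : FB N}
    (hf : ∀ v : Place QBar (FB N), m ∣ v.ord f) (v : Place QBar (FB N')) :
    m ∣ v.ord (inclF h f) := by
  letI := algebraAlong (inclF h)
  haveI := isScalarTower_along (inclF h)
  haveI : Module.Finite (FB N) (FB N') := FF.finiteAlong (inclF h)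
  rw [show inclF h f = algebraMap (FB N) (FB N') f from rfl, v.ord_restrict (F := FB N)]
  exact Dvd.dvd.mul_left (hf _) _

/-- The degree of the inclusion of a lower level. -/
theorem finrankAlong_inclF {N N' : ℕ} [NeZero N] [NeZero N'] (h : N ∣ N') :
    dedekindPsi N * finrankAlong QBar (inclF h) = dedekindPsi N' := by
  letI := algebraAlong (inclF h)
  haveI := isScalarTower_along (inclF h)
  haveI : Module.Finite (FB N) (FB N') := FF.finiteAlong (inclF h)
  have e := (FF.finite_and_finrank_adjoin_algebraMap (F' := FB N') (transcendental_jM N)).2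
  rw [show algebraMap (FB N) (FB N') (jM N) = jM N' from
      Subtype.ext ((coe_inclF h _).trans ((coe_jM N).trans (coe_jM N').symm)),
    (finrank_jM N').2, (finrank_jM N).2] at e
  exact e.symm

/-- `ψ(4 n)` is `4 ψ(n)` or `6 ψ(n)`. -/
theorem dedekindPsi_four_mul {n : ℕ} :
    dedekindPsi (4 * n) = 4 * dedekindPsi n ∨ dedekindPsi (4 * n) = 6 * dedekindPsi n := by
  rw [show 4 * n = 2 * (2 * n) by ring, Gamma0.dedekindPsi_mul_of_dvd Nat.prime_two ⟨n, rfl⟩]
  by_cases h : 2 ∣ n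
  · left; rw [Gamma0.dedekindPsi_mul_of_dvd Nat.prime_two h]; ring
  · right; rw [Gamma0.dedekindPsi_mul_of_not_dvd Nat.prime_two h]; ring

theorem not_dvd_of_four_or_six (hp5 : 5 ≤ p) {d : ℕ} (hd : d = 4 ∨ d = 6) : ¬ p ∣ d := by
  have hp : p.Prime := Fact.out
  intro h
  rcases hd with rfl | rfl
  · have := Nat.le_of_dvd (by norm_num) h
    omega
  · have := Nat.le_of_dvd (by norm_num) h
    interval_cases p <;> first | omega | norm_num at hp

theorem exists_root_of_inclF {M₀ : ℕ} [NeZero M₀] (hM4 : M = 4 * M₀) (hp5 : 5 ≤ p)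
    {f : FB (p * M₀)} (hf : f ≠ 0) {h : FB (p * M)} {c : QBar}
    (hfh : inclF (mul_dvd_mul_left p ⟨4, by rw [hM4, mul_comm]⟩ : p * M₀ ∣ p * M) f =
      algebraMap QBar (FB (p * M)) c * h ^ p) :
    ∃ h₀ : FB (p * M₀), ∃ c₀ : QBar, f = algebraMap QBar (FB (p * M₀)) c₀ * h₀ ^ p := by
  set hd : p * M₀ ∣ p * M := mul_dvd_mul_left p ⟨4, by rw [hM4, mul_comm]⟩
  letI := algebraAlong (inclF hd)
  haveI := isScalarTower_along (inclF hd)
  haveI : Module.Finite (FB (p * M₀)) (FB (p * M)) := FF.finiteAlong (inclF hd)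
  set d := Module.finrank (FB (p * M₀)) (FB (p * M)) with hddef
  have hψ : dedekindPsi (p * M₀) * d = dedekindPsi (p * M) := finrankAlong_inclF hd
  have hd46 : d = 4 ∨ d = 6 := by
    have hpos : 0 < dedekindPsi (p * M₀) := Semistable.dedekindPsi_pos _
    rw [show p * M = 4 * (p * M₀) by rw [hM4]; ring] at hψ
    rcases dedekindPsi_four_mul (n := p * M₀) with e | e <;> rw [e, mul_comm] at hψ
    · exact Or.inl (Nat.eq_of_mul_eq_mul_right hpos hψ)
    · exact Or.inr (Nat.eq_of_mul_eq_mul_right hpos hψ)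
  have hcop : IsCoprime (d : ℤ) (p : ℤ) := Nat.isCoprime_iff_coprime.mpr
    (((Fact.out : p.Prime).coprime_iff_not_dvd.mpr (not_dvd_of_four_or_six hp5 hd46)).symm)
  have hN := congrArg (Algebra.norm (FB (p * M₀))) hfh
  rw [show inclF hd f = algebraMap (FB (p * M₀)) (FB (p * M)) f from rfl,
    Algebra.norm_algebraMap, map_mul, map_pow,
    IsScalarTower.algebraMap_apply QBar (FB (p * M₀)) (FB (p * M)) c,
    Algebra.norm_algebraMap, ← hddef, ← map_pow] at hN
  obtain ⟨a, b, hab⟩ := hcop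
  refine ⟨Algebra.norm (FB (p * M₀)) h ^ a * f ^ b, (c ^ d) ^ a, ?_⟩
  calc f = f ^ (a * (d : ℤ) + b * (p : ℤ)) := by rw [hab, zpow_one]
    _ = (f ^ (d : ℤ)) ^ a * (f ^ b) ^ (p : ℤ) := by
      rw [zpow_add₀ hf, zpow_mul f b, mul_comm a, zpow_mul]
    _ = _ := by
      rw [zpow_natCast f d, hN, mul_zpow, zpow_natCast, mul_pow, map_zpow₀, ← zpow_natCast _ p,
        ← zpow_mul, mul_comm (p : ℤ) a, zpow_mul, zpow_natCast, mul_assoc]

theorem dlog_mem_redLattice {M₀ : ℕ} [NeZero M₀] (hM4 : M = 4 * M₀) (hp5 : 5 ≤ p)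
    (hA : A.LiesOverPrime p) (hM : (M : Res A) ≠ 0) {z : LaurentSeries (Res A)} (hz0 : z ≠ 0)
    (hz₀ : z ∈ KM A M₀) (hz : z ∈ KM A M)
    (hord : ∀ P : Place (Res A) (KM A M), (p : ℤ) ∣ P.ord ⟨z, hz⟩) :
    dlog z ∈ redLattice A M₀ := by
  classical
  have := residueField_isAlgClosed A
  have hM₀ : (M₀ : Res A) ≠ 0 := fun h => hM (by rw [hM4, Nat.cast_mul, h, mul_zero])
  have := isFunctionField_KM (A := A) hM₀
  have : FiniteDimensional (Res A)⟮jK A M₀⟯ (KM A M₀) :=
    RedTorsion.finiteDimensional_jF (F := KM A M₀) rfl hM₀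
  have : Algebra.IsSeparable (Res A)⟮jK A M₀⟯ (KM A M₀) :=
    RedTorsion.isSeparable_jF (F := KM A M₀) rfl hM₀
  have hle : KM A M₀ ≤ KM A M := by
    refine IntermediateField.adjoin.mono _ _ _ ?_
    rintro x ⟨d, hd, hx, rfl⟩
    exact ⟨d, hd, hx.trans ⟨4, by rw [hM4, mul_comm]⟩, rfl⟩
  set φ : KM A M₀ →ₐ[Res A] KM A M := IntermediateField.inclusion hle with hφ
  letI := algebraAlong φ
  haveI := isScalarTower_along φ
  haveI : Module.Finite (KM A M₀) (KM A M) := FF.finiteAlong φ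
  have hdeg : Module.finrank (KM A M₀) (KM A M) = 4 ∨ Module.finrank (KM A M₀) (KM A M) = 6 := by
    have e := (FF.finite_and_finrank_adjoin_algebraMap (F' := KM A M) (jK_transcendental A M₀)).2
    have hj : algebraMap (KM A M₀) (KM A M) (jK A M₀) = jK A M := Subtype.ext rfl
    rw [hj] at e
    have f1 : Module.finrank (Res A)⟮jK A M⟯ (KM A M) = dedekindPsi M :=
      (RedTorsion.finrank_jF (F := KM A M) rfl hM).trans (ModFun.natCard_coset M)
    have f0 : Module.finrank (Res A)⟮jK A M₀⟯ (KM A M₀) = dedekindPsi M₀ :=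
      (RedTorsion.finrank_jF (F := KM A M₀) rfl hM₀).trans (ModFun.natCard_coset M₀)
    rw [f1, f0] at e
    have hpos : 0 < dedekindPsi M₀ := Semistable.dedekindPsi_pos _
    have hψ : dedekindPsi M = dedekindPsi (4 * M₀) := congrArg dedekindPsi hM4
    rcases dedekindPsi_four_mul (n := M₀) with e' | e' <;>
      rw [hψ, e', mul_comm (dedekindPsi M₀)] at e
    · exact Or.inl (Nat.eq_of_mul_eq_mul_right hpos e.symm)
    · exact Or.inr (Nat.eq_of_mul_eq_mul_right hpos e.symm)
  -- the orders at level `M₀` are divisible by `p`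
  have hord₀ : ∀ v : Place (Res A) (KM A M₀), (p : ℤ) ∣ v.ord ⟨z, hz₀⟩ := by
    intro v
    have hpZ : Prime (p : ℤ) := Nat.prime_iff_prime_int.mp Fact.out
    by_contra hv
    have hall : ∀ w ∈ v.fiber (KM A M),
        (p : ℤ) ∣ (w.ramificationIndex (KM A M₀) : ℤ) * (w.inertiaDeg (KM A M₀) : ℤ) := by
      intro w hw
      have h := hord w
      rw [show (⟨z, hz⟩ : KM A M) = algebraMap (KM A M₀) (KM A M) ⟨z, hz₀⟩ from
        Subtype.ext rfl, w.ord_restrict (F := KM A M₀), Place.mem_fiber.mp hw] at h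
      exact ((hpZ.dvd_mul.mp h).resolve_right hv).mul_right _
    have h := Finset.dvd_sum hall
    rw [FF.sum_ramification_inertia] at h
    exact not_dvd_of_four_or_six hp5 hdeg (by exact_mod_cast h)
  obtain ⟨hreg, hg⟩ := regForms_eq_redLattice p (A := A) (M := M₀) hA hp5 hM₀
  have hz0' : (⟨z, hz₀⟩ : KM A M₀) ≠ 0 := fun h => hz0 (congrArg Subtype.val h)
  rw [← hreg]
  refine ⟨_, dlog_mem_regular p hA hM₀ hg hp5 hz0' hord₀, ?_⟩
  rw [mulTheta_apply, dlog, IntermediateField.coe_div, div_mul_eq_mul_div,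
    ← coe_dd_mul_theta (⟨z, hz₀⟩ : KM A M₀)]

theorem exists_root_of_dlog_eq_zero (_hA : A.LiesOverPrime p) (hM : (M : Res A) ≠ 0)
    (z : KM A M) (h : dlog (z : LaurentSeries (Res A)) = 0) : ∃ g : KM A M, g ^ p = z := by
  have := residueField_isAlgClosed A
  have hp : p.Prime := Fact.out
  rcases eq_or_ne z 0 with rfl | hz
  · exact ⟨0, zero_pow hp.ne_zero⟩
  by_contra hno
  push Not at hno
  by_cases hz' : Transcendental (Res A) z
  · have : FiniteDimensional (Res A)⟮jK A M⟯ (KM A M) :=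
      RedTorsion.finiteDimensional_jF (F := KM A M) rfl hM
    have : Algebra.IsSeparable (Res A)⟮jK A M⟯ (KM A M) :=
      RedTorsion.isSeparable_jF (F := KM A M) rfl hM
    have hθ : theta (Res A) (z : LaurentSeries (Res A)) = 0 := by
      rw [dlog, div_eq_zero_iff] at h
      exact h.resolve_right fun h' => hz (Subtype.ext h')
    rw [coe_dd_mul_theta, mul_eq_zero] at hθ
    have hdd : dd (K := Res A) (jK A M) z = 0 :=
      Subtype.ext (hθ.resolve_right red_theta_jqModC_ne_zero)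
    have hD : KaehlerDifferential.D (Res A) (KM A M) z = 0 := by
      rw [← dd_spec (jK_transcendental A M) z, hdd, zero_smul]
    have := RedTorsion.isSeparable_of_not_pow p hz' hno
    exact FF.D_ne_zero_of_isSeparable hz' hD
  · obtain ⟨c, rfl⟩ : ∃ c, algebraMap (Res A) (KM A M) c = z := by
      have halg : IsAlgebraic (Res A) z := not_not.mp hz'
      exact minpoly.mem_range_of_degree_eq_one (Res A) z
        (IsAlgClosed.degree_eq_one_of_irreducible (Res A) (minpoly.irreducible halg.isIntegral))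
    obtain ⟨r, hr⟩ := IsAlgClosed.exists_pow_nat_eq c hp.pos
    exact hno (algebraMap (Res A) (KM A M) r) (by rw [← map_pow, hr])

end Fermat.Agent.RT.MazurP

end
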