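import Fermat.Agent.RT.MazurP.Interface
import Fermat.Agent.RT.MazurP.Node
import Fermat.Agent.RT.MazurP.Level

/-!
# Hecke congruences of Kummer functions at `p`

If the image of a Kummer function under the `l`-th Hecke correspondence is its `a`-th power up to a
`p`-th power, with `a` not congruent to `l + 1`, then all orders of its reductions and the
difference of its orders on the two components are divisible by `p`; the logarithmic derivatives
of its reductions are eigen for `T_l` with eigenvalue `a`.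
-/

set_option autoImplicit false
set_option synthInstance.maxHeartbeats 400000
set_option maxHeartbeats 1000000
set_option linter.unusedSectionVars false

noncomputable section

namespace Fermat.Agent.RT.MazurP

open ModularCurve AlgebraicCurve Fermat.Agent.Semistable Fermat.Agent.Arith
open Fermat.Agent.RT.Mazur

variable {A : ValuationSubring QBar} {p M : ℕ} [Fact p.Prime] [NeZero M] {hpM : ¬ p ∣ M}
variable [CharP (Res A) p]

theorem not_dvd_of_not_dvd_mul {l : ℕ} (hl : l.Prime) (hN : ¬ l ∣ p * M) : ¬ p ∣ l := fun h =>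
  hN (((Nat.prime_dvd_prime_iff_eq Fact.out hl).mp h) ▸ dvd_mul_right p M)

variable {l : ℕ} [NeZero l]

/-- An image with divisor divisible by `p`. -/
theorem HeckeRel.dvd_ord {f : FB (p * M)} {a : ℤ} (hrel : HeckeRel (p * M) p l f a) (hf : f ≠ 0)
    (hdvd : ∀ v : Place QBar (FB (p * M)), (p : ℤ) ∣ v.ord f)
    (v : Place QBar (FB (p * M))) : (p : ℤ) ∣ v.ord (heckeNorm (p * M) l f) := by
  obtain ⟨h, hh, e⟩ := hrel
  rw [e, v.ord_mul (zpow_ne_zero _ hf) (pow_ne_zero _ hh), v.ord_zpow, FF.ord_pow v]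
  exact dvd_add ((hdvd v).mul_left a) (dvd_mul_right _ _)

namespace Kum

variable {C : CoefField A p} (K : Kum hpM C)

theorem isRed_fb (s : Fin 2) :
    IsRed A (iota2 M p hpM s K.f) (K.fb s : LaurentSeries (Res A)) := by
  obtain ⟨h, e⟩ := K.spec s
  exact ⟨fun h0 => K.fb_ne s (Subtype.ext h0), C.π ^ (-K.v s), zpow_ne_zero _ C.π_ne_zero, h, e⟩

theorem gord_iota2 (s : Fin 2) : C.gord (iota2 M p hpM s K.f) = K.v s := by
  obtain ⟨h, e⟩ := K.spec s
  exact CoefField.gord_eq ⟨h, by rw [e]; exact fun h0 => K.fb_ne s (Subtype.ext h0)⟩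

/-- The data of the image under the Hecke correspondence. -/
theorem exists_heckeNorm (hA : A.LiesOverPrime p) (hM : (M : Res A) ≠ 0) (hl : l.Prime)
    (hN : ¬ l ∣ p * M) {a : ℤ} (hrel : HeckeRel (p * M) p l K.f a) :
    ∃ K' : Kum hpM C, K'.f = heckeNorm (p * M) l K.f ∧ K'.δ = ((l : ℤ) + 1) * K.δ ∧
      (∀ P, (p : ℤ) ∣ K'.s₀ P - a * K.s₀ P) ∧ ∀ P, (p : ℤ) ∣ K'.t₀ P - a * K.t₀ P := by
  have hp : p.Prime := Fact.out
  obtain ⟨K', hK'⟩ := exists_of (hpM := hpM) (C := C) hA hM (heckeNorm_ne_zero (l := l) K.f_ne)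
    (hrel.dvd_ord K.f_ne K.dvd) fun τ hτ => by rw [← heckeNorm_galF hl hN, K.fix τ hτ]
  have hv : ∀ s, K'.v s = ((l : ℤ) + 1) * K.v s := fun s => by
    rw [← K'.gord_iota2, ← K.gord_iota2, hK']
    exact gord_heckeImage hA hp C (iota2_fracS M p hpM s _) ((_root_.map_ne_zero _).mpr K.f_ne)
      (K.iota_fix s) (iota2_fracS M p hpM s _)
      fun ζ hζ => qExpand_iota2_heckeNorm p M l hpM hl hN s hζ K.f
  obtain ⟨h, hh, e⟩ := hrel
  have key : ∀ (s : Fin 2) (P : Place (Res A) (KM A M)),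
      (p : ℤ) ∣ P.ord (K'.fb s) - a * P.ord (K.fb s) := by
    intro s P
    obtain ⟨z, hz⟩ := IsRed.exists_of_ne_zero hA hp (iota2_fracS M p hpM s h)
      ((_root_.map_ne_zero _).mpr hh)
    set g : KM A M := ⟨z, isRed_mem_KM p M hpM hA hM hz⟩
    have hg : g ≠ 0 := fun h0 => hz.1 (congrArg Subtype.val h0)
    have h1 := ((K.isRed_fb s).zpow a).mul (hz.pow p)
    rw [← map_pow (iota2 M p hpM s) h, ← map_zpow₀ (iota2 M p hpM s) K.f, ← map_mul, ← e,
      ← hK'] at h1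
    obtain ⟨u, hu, eu⟩ := h1.unique (K'.isRed_fb s)
    have e2 : K'.fb s = algebraMap (Res A) (KM A M) u * (K.fb s ^ a * g ^ p) := by
      refine Subtype.ext ?_
      rw [eu]
      push_cast
      rfl
    rw [e2, P.ord_mul ((_root_.map_ne_zero _).mpr hu)
        (mul_ne_zero (zpow_ne_zero _ (K.fb_ne s)) (pow_ne_zero _ hg)), FF.ord_algebraMap, zero_add,
      P.ord_mul (zpow_ne_zero _ (K.fb_ne s)) (pow_ne_zero _ hg), P.ord_zpow, FF.ord_pow P,
      add_sub_cancel_left]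
    exact dvd_mul_right _ _
  exact ⟨K', hK', by rw [Kum.δ, Kum.δ, hv, hv, mul_sub], key 0, key 1⟩

/-- The logarithmic derivatives of the reductions are eigen for `T_l`. -/
theorem dlog_eigen (hA : A.LiesOverPrime p) (hl : l.Prime) (hN : ¬ l ∣ p * M) {a : ℤ}
    (hrel : HeckeRel (p * M) p l K.f a) (s : Fin 2) (n : ℤ) :
    (dlog (K.fb s : LaurentSeries (Res A))).coeff ((l : ℤ) * n) +
      (if (l : ℤ) ∣ n then
        (l : Res A) * (dlog (K.fb s : LaurentSeries (Res A))).coeff (n / l) else 0) =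
      (a : Res A) * (dlog (K.fb s : LaurentSeries (Res A))).coeff n := by
  have hp : p.Prime := Fact.out
  have hlp : ¬ p ∣ l := not_dvd_of_not_dvd_mul hl hN
  have hl0 : (l : Res A) ≠ 0 := fun h => hlp ((CharP.cast_eq_zero_iff (Res A) p l).mp h)
  obtain ⟨h, hh, e⟩ := hrel
  obtain ⟨X, hX, hXl⟩ := exists_isRed_heckeImage hA hp hlp
    (iota2_fracS M p hpM s (heckeNorm (p * M) l K.f))
    (fun ζ hζ => qExpand_iota2_heckeNorm p M l hpM hl hN s hζ K.f) (K.isRed_fb s)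
  obtain ⟨z, hz⟩ := IsRed.exists_of_ne_zero hA hp (iota2_fracS M p hpM s h)
    ((_root_.map_ne_zero _).mpr hh)
  have h1 := ((K.isRed_fb s).zpow a).mul (hz.pow p)
  rw [← map_pow (iota2 M p hpM s) h, ← map_zpow₀ (iota2 M p hpM s) K.f, ← map_mul, ← e] at h1
  obtain ⟨u, hu, eu⟩ := h1.unique hX
  have hfb : (K.fb s : LaurentSeries (Res A)) ≠ 0 := (K.isRed_fb s).1
  have hu' : (HahnSeries.C u : LaurentSeries (Res A)) ≠ 0 := (_root_.map_ne_zero _).mpr hu
  have ed : dlog X = HahnSeries.C (a : Res A) * dlog (K.fb s : LaurentSeries (Res A)) := by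
    rw [eu, algebraMap_eq_C, dlog_mul hu' (mul_ne_zero (zpow_ne_zero _ hfb) (pow_ne_zero _ hz.1)),
      dlog_C, zero_add, dlog_mul (zpow_ne_zero _ hfb) (pow_ne_zero _ hz.1), dlog_zpow hfb,
      dlog_pow, map_intCast, ← map_natCast (HahnSeries.C (R := Res A) (Γ := ℤ)),
      CharP.cast_eq_zero, map_zero, zero_mul, add_zero]
  obtain ⟨ζ, hζ⟩ := exists_primitive hl hN
  rw [← hXl.coeff_dlog hl0 (resRoot_primitive hA hp hlp hζ) hfb n, ed, coeff_C_mul]

end Kum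

variable [FF.IsFunctionField (Res A) (KM A M)]

/-- The reduced unit has a zero away from the cusps. -/
theorem VUnit.Simple.exists_node {V : VUnit A hpM} (hV : V.Simple) (hM : (M : Res A) ≠ 0) :
    ∃ P, V.oW P = 12 := by
  have hdeg := degree_oD hM V
  have hpos : (0 : ℤ) < ((p : ℤ) - 1) * dedekindPsi M :=
    mul_pos (by have := (Fact.out : p.Prime).two_le; omega)
      (by exact_mod_cast dedekindPsi_pos M)
  by_contra hall
  push Not at hall
  have h0 : V.oD = 0 := Finsupp.ext fun P => (hV.val P).resolve_right (hall P)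
  rw [h0, map_zero] at hdeg
  omega

theorem intDvd_of_mul {x y : ℤ} (h : (p : ℤ) ∣ x * y) (hx : ¬ (p : ℤ) ∣ x) : (p : ℤ) ∣ y :=
  ((Nat.prime_iff_prime_int.mp Fact.out).dvd_or_dvd h).resolve_left hx

theorem not_dvd_succ_sub {a : ℤ} (hne : (a : ZMod p) ≠ (l : ZMod p) + 1) :
    ¬ (p : ℤ) ∣ (l : ℤ) + 1 - a := fun h => hne (by
  have := (ZMod.intCast_zmod_eq_zero_iff_dvd _ _).mpr h
  push_cast at this
  linear_combination -this)

/-- Over a tame field, a congruence `a ≠ l + 1` forces all orders to be divisible by `p`. -/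
theorem Kum.dvd_of_heckeRel {C : CoefField A p} (hCe : ¬ p ∣ C.e) (K : Kum hpM C)
    (V : VUnit A hpM) (hA : A.LiesOverPrime p) (hM : (M : Res A) ≠ 0) (hV : V.Simple)
    (hl : l.Prime) (hN : ¬ l ∣ p * M) {a : ℤ}
    (hrel : HeckeRel (p * M) p l K.f a) (hne : (a : ZMod p) ≠ (l : ZMod p) + 1) :
    (∀ P, (p : ℤ) ∣ K.s₀ P ∧ (p : ℤ) ∣ K.t₀ P) ∧ (p : ℤ) ∣ K.δ := by
  obtain ⟨K', -, hδ', hs', -⟩ := K.exists_heckeNorm hA hM hl hN hrel
  obtain ⟨hoff, hnode, -⟩ := K.res V hA hM hV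
  obtain ⟨-, hnode', -⟩ := K'.res V hA hM hV
  have he : ¬ (p : ℤ) ∣ C.e := fun h => hCe (Int.natCast_dvd_natCast.mp h)
  have hnd : ∀ P, V.oW P = 12 → (p : ℤ) ∣ K.s₀ P ∧ (p : ℤ) ∣ K.δ ∧ (p : ℤ) ∣ K.t₀ P := by
    intro P hP
    obtain ⟨h1, h2⟩ := hnode P hP
    have h3 := (hnode' P hP).1
    rw [hδ'] at h3
    have h4 : (p : ℤ) ∣ C.e * (((l : ℤ) + 1 - a) * K.s₀ P) := by
      rw [show (C.e : ℤ) * (((l : ℤ) + 1 - a) * K.s₀ P) =
          (((l : ℤ) + 1) * K.δ - C.e * K'.s₀ P) - ((l : ℤ) + 1) * (K.δ - C.e * K.s₀ P) +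
            C.e * (K'.s₀ P - a * K.s₀ P) by ring]
      exact dvd_add (dvd_sub h3 (h1.mul_left _)) ((hs' P).mul_left _)
    have hs := intDvd_of_mul (intDvd_of_mul h4 he) (not_dvd_succ_sub hne)
    have hδ := (dvd_sub_left (hs.mul_left (C.e : ℤ))).mp h1
    exact ⟨hs, hδ, intDvd_of_mul ((dvd_add_right hδ).mp h2) he⟩
  obtain ⟨P₀, hP₀⟩ := hV.exists_node hM
  refine ⟨fun P => ?_, (hnd P₀ hP₀).2.1⟩
  rcases hV.val P with h | h
  · exact hoff P h
  · exact ⟨(hnd P h).1, (hnd P h).2.2⟩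

variable {W : Wild A p} {K : Kum hpM W.C}

/-- The action of the wild generator on the image under a Hecke correspondence. -/
theorem SigmaRel.exists_heckeImage (R : SigmaRel W K) (V : VUnit A hpM) (hA : A.LiesOverPrime p)
    (hM : (M : Res A) ≠ 0) (hV : V.Simple) (hl : l.Prime) (hN : ¬ l ∣ p * M) {a : ℤ}
    (hrel₀ : HeckeRel (p * M) p l R.f₀ a) (K' : Kum hpM W.C)
    (hK' : K'.f = heckeNorm (p * M) l K.f) :
    ∃ (R' : SigmaRel W K') (r : Fin 2 → Res A),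
      (∀ s, redL A ⟨_, R.y_mem s⟩ = algebraMap (Res A) (LaurentSeries (Res A)) (r s)) ∧
      ∀ s, redL A ⟨_, R'.y_mem s⟩ =
        algebraMap (Res A) (LaurentSeries (Res A)) (((l : Res A) + 1) * r s) := by
  have hp : p.Prime := Fact.out
  obtain ⟨r, hr⟩ := R.exists_red_const V hA hM hV
  obtain ⟨ζ, hζ⟩ := exists_primitive hl hN
  have hy : ∀ s, ∃ y₁, ∃ h : y₁ ∈ locS A,
      iota2 M p hpM s (heckeNorm (p * M) l R.q) = 1 + algebraMap QBar LSer W.C.π * y₁ ∧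
      redL A ⟨y₁, h⟩ =
        algebraMap (Res A) (LaurentSeries (Res A)) (((l : Res A) + 1) * r s) := fun s =>
    heckeImage_congr_one hA hp W.C.π_nonunit W.C.π_ne_zero (R.y_mem s) (hr s)
      (iota2_fracS M p hpM s _) hζ (by rw [qExpand_iota2_heckeNorm p M l hpM hl hN s hζ, R.q_eq])
  choose y hym hye hyr using hy
  have hred : ∀ s, ∃ h : iota2 M p hpM s (heckeNorm (p * M) l R.f₀) ∈ locS A,
      redL A ⟨_, h⟩ = 1 := by
    intro s
    obtain ⟨h₀, hr₀⟩ := R.f₀_red s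
    obtain ⟨hm, em⟩ := heckeProd_mem_locS hζ.pow_eq_one h₀
    have e := qExpand_iota2_heckeNorm p M l hpM hl hN s hζ R.f₀
    obtain ⟨h', e'⟩ := locS_of_qExpand hA hp (iota2_fracS M p hpM s _) (by rw [e]; exact hm)
    refine ⟨h', qExpand_injective l ?_⟩
    rw [e', redL_congr _ hm e, em, hr₀, map_one, map_one]
  exact ⟨{
    f₀ := heckeNorm (p * M) l R.f₀
    f₀_ne := heckeNorm_ne_zero R.f₀_ne
    f₀_dvd := hrel₀.dvd_ord R.f₀_ne R.f₀_dvd
    f₀_fix := fun τ hτ => by rw [← heckeNorm_galF hl hN, R.f₀_fix τ hτ]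
    f₀_red := hred
    q := heckeNorm (p * M) l R.q
    q_fix := fun τ hτ => by rw [← heckeNorm_galF hl hN, R.q_fix τ hτ]
    y := y
    y_mem := hym
    q_eq := hye
    κ := R.κ ^ (l + 1)
    κ_ne := pow_ne_zero _ R.κ_ne
    rel := by
      rw [hK', ← heckeNorm_galF hl hN, R.rel, map_mul, map_mul, map_mul, map_pow,
        heckeNorm_algebraMap hl hN] }, r, hr, hyr⟩

/-- Over a wild field with jump one, a congruence `a ≠ l + 1` forces all orders to be divisible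
by `p`. -/
theorem SigmaRel.dvd_of_heckeRel (R : SigmaRel W K)
    (V : VUnit A hpM) (hA : A.LiesOverPrime p) (hM : (M : Res A) ≠ 0) (hV : V.Simple)
    (hl : l.Prime) (hN : ¬ l ∣ p * M) {a : ℤ}
    (hrel : HeckeRel (p * M) p l K.f a) (hrel₀ : HeckeRel (p * M) p l R.f₀ a)
    (hne : (a : ZMod p) ≠ (l : ZMod p) + 1) :
    (∀ P, (p : ℤ) ∣ K.s₀ P ∧ (p : ℤ) ∣ K.t₀ P) ∧ (p : ℤ) ∣ K.δ := by
  have hp : p.Prime := Fact.out
  obtain ⟨K', hK', hδ', hs', -⟩ := K.exists_heckeNorm hA hM hl hN hrel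
  obtain ⟨R', r, hr, hr'⟩ := R.exists_heckeImage V hA hM hV hl hN hrel₀ K' hK'
  have hcast : ∀ {x : ℤ}, (x : Res A) * IsLocalRing.residue A W.u = 0 → (p : ℤ) ∣ x :=
    fun h => (CharP.intCast_eq_zero_iff (Res A) p _).mp ((mul_eq_zero.mp h).resolve_right W.u_ne)
  have hnd : ∀ P, V.oW P = 12 → (p : ℤ) ∣ K.s₀ P ∧ (p : ℤ) ∣ K.δ ∧ (p : ℤ) ∣ K.t₀ P := by
    intro P hP
    obtain ⟨d, hd, h1, h2⟩ := R.node_eq V hA hM hV hr hP
    obtain ⟨d', hd', h1', -⟩ := R'.node_eq V hA hM hV hr' hP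
    rw [hδ', hd, mul_left_comm] at hd'
    obtain rfl : ((l : ℤ) + 1) * d = d' :=
      mul_left_cancel₀ (Int.natCast_ne_zero.mpr hp.ne_zero) hd'
    have h4 : (p : ℤ) ∣ ((l : ℤ) + 1) * d + K'.s₀ P - ((l : ℤ) + 1) * (d + K.s₀ P) := by
      refine hcast ?_
      push_cast at h1 h1' ⊢
      linear_combination h1' - ((l : Res A) + 1) * h1
    have hs : (p : ℤ) ∣ K.s₀ P := by
      refine intDvd_of_mul ?_ (not_dvd_succ_sub hne)
      rw [show ((l : ℤ) + 1 - a) * K.s₀ P = (K'.s₀ P - a * K.s₀ P) -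
          (((l : ℤ) + 1) * d + K'.s₀ P - ((l : ℤ) + 1) * (d + K.s₀ P)) by ring]
      exact dvd_sub (hs' P) h4
    have h5 : (p : ℤ) ∣ K.s₀ P + K.t₀ P := by
      refine hcast ?_
      push_cast at h1 h2 ⊢
      linear_combination h1 - h2
    exact ⟨hs, ⟨d, hd⟩, (dvd_add_right hs).mp h5⟩
  obtain ⟨P₀, hP₀⟩ := hV.exists_node hM
  refine ⟨fun P => ?_, (hnd P₀ hP₀).2.1⟩
  rcases hV.val P with h | h
  · exact (K.res V hA hM hV).1 P h
  · exact ⟨(hnd P h).1, (hnd P h).2.2⟩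

end Fermat.Agent.RT.MazurP

end
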